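import Fermat.Agent.FF.Curve
import Fermat.Agent.FF.DiffGenus
import Fermat.Agent.FF.Extension

/-!
# Riemann–Hurwitz for an extension of function fields

`2 g(F) - 2 = [F : E] (2 g(E) - 2) + deg R` with `R ≥ 0`, and `R = 0` for an unramified extension
in characteristic zero.
-/

noncomputable section

open AlgebraicCurve KaehlerDifferential
open scoped IntermediateField

namespace Fermat.Agent.WeightOneGalois.Genus

variable {K E F : Type*} [Field K] [Field E] [Field F] [Algebra K E] [Algebra K F] [Algebra E F]
  [IsScalarTower K E F] [IsAlgClosed K] [FF.IsFunctionField K E] [FF.IsFunctionField K F]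
  [FiniteDimensional E F]

omit [IsAlgClosed K] [FF.IsFunctionField K E] [FF.IsFunctionField K F] [FiniteDimensional E F] in
theorem map_smul_D (a t : E) :
    KaehlerDifferential.map K K E F (a • D K E t) =
      algebraMap E F a • D K F (algebraMap E F t) := by
  rw [map_smul, KaehlerDifferential.map_D, algebraMap_smul]

variable {x : E} (hx : Transcendental K x) [Algebra.IsSeparable K⟮x⟯ E]
  [Algebra.IsSeparable K⟮algebraMap E F x⟯ F]
include hx

/-- The order of `dx` upstairs, from the order downstairs and that of a uniformiser downstairs. -/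
theorem exists_ordDifferential_eq (v : Place K F) : ∃ t : E, (v.restrict E).ord t = 1 ∧
    v.ordDifferential (D K F (algebraMap E F x)) =
      v.ramificationIndex E * (v.restrict E).ordDifferential (D K E x) +
        v.ordDifferential (D K F (algebraMap E F t)) := by
  have hxF := FF.transcendental_algebraMap (F' := F) hx
  have hneE : D K E x ≠ 0 := FF.D_ne_zero hx
  have hneF : D K F (algebraMap E F x) ≠ 0 := FF.D_ne_zero hxF
  have : Nontrivial Ω[E⁄K] := ⟨⟨_, _, hneE⟩⟩
  have : Nontrivial Ω[F⁄K] := ⟨⟨_, _, hneF⟩⟩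
  have hv := FF.Diff.regularPlace (algebraMap E F x) v
  have hw := FF.Diff.regularPlace x (v.restrict E)
  obtain ⟨t, ht, -⟩ := FF.Diff.exists_dCoord_eq (v := v.restrict E)
  obtain ⟨d, -, hd, -⟩ := hw.exists_deriv ht
  have hdx : d x ≠ 0 := fun h => hneE (by rw [hd x, h, zero_smul])
  have he : D K F (algebraMap E F x) = algebraMap E F (d x) • D K F (algebraMap E F t) := by
    rw [← KaehlerDifferential.map_D (R := K) (S := K) (A := E) (B := F) x, hd x, map_smul_D]
  have hDt : D K F (algebraMap E F t) ≠ 0 := fun h => hneF (by rw [he, h, smul_zero])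
  refine ⟨t, ht, ?_⟩
  rw [he, hv.ordDifferential_smul_of_ne_zero ((_root_.map_ne_zero _).mpr hdx) hDt,
    v.ord_restrict, hd x, hw.ordDifferential_smul_D_uniformiser ht]

/-- Riemann–Hurwitz as an inequality in every characteristic, with equality for an unramified
extension in characteristic zero. -/
theorem le_two_genus_sub_two :
    (Module.finrank E F : ℤ) * (2 * (genusFF K E : ℤ) - 2) ≤ 2 * (genusFF K F : ℤ) - 2 ∧
      (CharZero K → (∀ v : Place K F, v.ramificationIndex E = 1) →
        2 * (genusFF K F : ℤ) - 2 = (Module.finrank E F : ℤ) * (2 * (genusFF K E : ℤ) - 2)) := by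
  have hxF := FF.transcendental_algebraMap (F' := F) hx
  have hneE : D K E x ≠ 0 := FF.D_ne_zero hx
  have hneF : D K F (algebraMap E F x) ≠ 0 := FF.D_ne_zero hxF
  have : Nontrivial Ω[E⁄K] := ⟨⟨_, _, hneE⟩⟩
  have : Nontrivial Ω[F⁄K] := ⟨⟨_, _, hneF⟩⟩
  obtain ⟨WE, hWE, hdE, -⟩ := FF.Diff.exists_canonical_divisor hx hneE
  obtain ⟨WF, hWF, hdF, -⟩ := FF.Diff.exists_canonical_divisor hxF hneF
  have hpull : Divisor.degree (Divisor.pullback (F' := F) WE) =
      (Module.finrank E F : ℤ) * (2 * (genusFF K E : ℤ) - 2) := by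
    rw [Divisor.degree_pullback, hdE]
  have happ : ∀ v : Place K F, Divisor.pullback (F' := F) WE v =
      v.ramificationIndex E * WE (v.restrict E) := fun v => Divisor.pullback_apply _ _
  refine ⟨?_, fun h0 hun => ?_⟩
  · rw [← hpull, ← hdF, ← sub_nonneg, ← map_sub, FF.degree_eq_sum]
    refine Finset.sum_nonneg fun v _ => ?_
    obtain ⟨t, ht, h⟩ := exists_ordDifferential_eq hx v
    have hnn : 0 ≤ v.ordDifferential (D K F (algebraMap E F t)) := by
      refine (FF.Diff.regularPlace (algebraMap E F x) v).ordDifferential_D_nonneg ?_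
      rw [FF.Diff.val_le_one_iff_mem, FF.mem_iff_ord_nonneg, v.ord_restrict, ht]
      positivity
    rw [Finsupp.sub_apply, hWF, happ, hWE, h]
    simp only [add_sub_cancel_left]
    exact hnn
  · rw [← hpull, ← hdF]
    congr 1
    ext v
    obtain ⟨t, ht, h⟩ := exists_ordDifferential_eq hx v
    have h1 : v.ord (algebraMap E F t) = 1 := by rw [v.ord_restrict, ht, hun]; norm_num
    rw [hWF, happ, hWE, h,
      (FF.Diff.regularPlace (algebraMap E F x) v).ordDifferential_D_of_ord_ne (by
        rw [h1]; exact Int.cast_ne_zero.mpr one_ne_zero), h1]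
    ring

end Fermat.Agent.WeightOneGalois.Genus
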