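import Mathlib.FieldTheory.SeparableClosure
import Fermat.Prelude.Def_ModularCurve_X0ModL
import Fermat.Agent.FF.Curve
import Fermat.Agent.FF.DiffSep

/-!
# A function whose `q`-expansion has non-zero derivative is separating

Gives separability of the function field over `k(j)` in characteristic `p`, as needed for
Riemann–Hurwitz in `Genus/Main`.
-/

noncomputable section

open AlgebraicCurve KaehlerDifferential HahnSeries
open scoped IntermediateField

namespace Fermat.Agent.WeightOneGalois.Genus

/-- `q d/dq`, coefficientwise. -/
def eulerFun {K : Type*} [Field K] (f : LaurentSeries K) : LaurentSeries K where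
  coeff n := (n : K) * f.coeff n
  isPWO_support' := f.isPWO_support.mono fun n hn h => hn (by simp [h])

@[simp] theorem eulerFun_coeff {K : Type*} [Field K] (f : LaurentSeries K) (n : ℤ) :
    (eulerFun f).coeff n = (n : K) * f.coeff n := rfl

theorem eulerFun_mul {K : Type*} [Field K] (f g : LaurentSeries K) :
    eulerFun (f * g) = f * eulerFun g + g * eulerFun f := by
  have hs : ∀ h : LaurentSeries K, (eulerFun h).support ⊆ h.support := fun h n hn h0 =>
    hn (by simp [h0])
  refine HahnSeries.ext (funext fun n => ?_)
  rw [mul_comm g, coeff_add, eulerFun_coeff, coeff_mul, coeff_mul_right' g.isPWO_support (hs g),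
    coeff_mul_left' f.isPWO_support (hs f), ← Finset.sum_add_distrib, Finset.mul_sum]
  refine Finset.sum_congr rfl fun ij hij => ?_
  simp only [Finset.mem_antidiagonal] at hij
  simp only [eulerFun_coeff, ← hij.2.2, Int.cast_add]
  ring

/-- The `K`-module structure of `K((q))` underlying its algebra structure. -/
@[reducible] def lsModule (K : Type*) [Field K] : Module K (LaurentSeries K) := Algebra.toModule

/-- The scalar action of `K` on `K((q))` underlying its algebra structure. -/
@[reducible] def lsSMul (K : Type*) [Field K] : SMul K (LaurentSeries K) := Algebra.toSMul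

attribute [local instance 10000] lsModule lsSMul

/-- `q d/dq` as a derivation. -/
def euler (K : Type*) [Field K] : Derivation K (LaurentSeries K) (LaurentSeries K) :=
  Derivation.mk'
    { toFun := eulerFun
      map_add' := fun f g => HahnSeries.ext (funext fun n => by simp [mul_add])
      map_smul' := fun c f => by
        refine HahnSeries.ext (funext fun n => ?_)
        simp only [RingHom.id_apply, Algebra.smul_def,
          ModularCurve.algebraMap_laurentSeries_eq_single, eulerFun_coeff,
          HahnSeries.coeff_single_mul, sub_zero]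
        ring }
    fun f g => eulerFun_mul f g

theorem euler_coeff {K : Type*} [Field K] (f : LaurentSeries K) (n : ℤ) :
    (euler K f).coeff n = (n : K) * f.coeff n := by
  exact eulerFun_coeff f n

variable {K F : Type*} [Field K] [IsAlgClosed K] [Field F] [Algebra K F]

/-- Separability of `F` over `K(x)`. -/
theorem isSeparable_of_euler_ne_zero (ι : F →ₐ[K] LaurentSeries K) (x : F) (hx : Transcendental K x)
    [FiniteDimensional K⟮x⟯ F] (hd : euler K (ι x) ≠ 0) :
    Algebra.IsSeparable K⟮x⟯ F := by
  rcases CharP.exists' K with h | ⟨p, hp, hK⟩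
  · have : CharZero K⟮x⟯ := charZero_of_injective_algebraMap (algebraMap K K⟮x⟯).injective
    infer_instance
  have := hp
  have : CharP F p := charP_of_injective_algebraMap (algebraMap K F).injective p
  have hp0 : ((p : ℕ) : LaurentSeries K) = 0 := by
    rw [← map_natCast (algebraMap K (LaurentSeries K)), CharP.cast_eq_zero, map_zero]
  set S := separableClosure K⟮x⟯ F with hS
  have : IsScalarTower K S F := IsScalarTower.of_algebraMap_eq fun _ => rfl
  let x' : S := algebraMap K⟮x⟯ S (IntermediateField.AdjoinSimple.gen K x)
  let incl : S →ₐ[K] LaurentSeries K :=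
    ι.comp (IsScalarTower.toAlgHom K S F)
  have hx' : Transcendental K x' := fun h => hx (by
    simpa [x'] using h.algHom (IsScalarTower.toAlgHom K S F))
  have hsep : Algebra.IsSeparable K⟮x'⟯ S := by
    refine ⟨fun s => ?_⟩
    have hs : IsSeparable K⟮x⟯ s := Algebra.IsSeparable.isSeparable K⟮x⟯ s
    let e : K⟮x⟯ →+* K⟮x'⟯ := (algebraMap K⟮x⟯ S).codRestrict K⟮x'⟯ fun z => by
      have h := IntermediateField.adjoin_map K {IntermediateField.AdjoinSimple.gen K x}
        (IsScalarTower.toAlgHom K K⟮x⟯ S)
      rw [Set.image_singleton] at h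
      rw [show K⟮x'⟯ = K⟮(IsScalarTower.toAlgHom K K⟮x⟯ S) (IntermediateField.AdjoinSimple.gen K x)⟯
        from rfl, ← h]
      refine ⟨z, ?_, rfl⟩
      show z ∈ IntermediateField.adjoin K {IntermediateField.AdjoinSimple.gen K x}
      obtain ⟨z, hz⟩ := z
      induction hz using IntermediateField.adjoin_induction with
      | mem y hy =>
        obtain rfl := Set.mem_singleton_iff.mp hy
        exact IntermediateField.subset_adjoin K _ rfl
      | algebraMap c => exact IntermediateField.algebraMap_mem _ c
      | add y z hy hz ihy ihz => exact add_mem ihy ihz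
      | inv y hy ih => exact inv_mem ih
      | mul y z hy hz ihy ihz => exact mul_mem ihy ihz
    let : Algebra K⟮x⟯ K⟮x'⟯ := e.toAlgebra
    have : IsScalarTower K⟮x⟯ K⟮x'⟯ S := IsScalarTower.of_algebraMap_eq fun _ => rfl
    exact IsSeparable.tower_top K⟮x'⟯ hs
  have hpow : ∀ f : F, f ^ p ∈ S → f ∈ S := fun f hf => by
    have hD : euler K ((ι f) ^ p) = 0 := by
      rw [Derivation.leibniz_pow, nsmul_eq_mul, hp0, zero_mul]
    have : Nontrivial Ω[S⁄K] := ⟨⟨_, _, FF.D_ne_zero hx'⟩⟩
    obtain ⟨d, hd1, hd2⟩ := FF.Diff.exists_derivation (FF.span_D_eq_top hx')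
    set y : S := ⟨f ^ p, hf⟩
    let : Algebra S (LaurentSeries K) := incl.toRingHom.toAlgebra
    have : IsScalarTower K S (LaurentSeries K) :=
      IsScalarTower.of_algebraMap_eq fun c => (incl.commutes c).symm
    let δ : Derivation K S (LaurentSeries K) := (euler K).compAlgebraMap S
    have hy : δ y = 0 := by
      show euler K (ι (f ^ p)) = 0
      rw [map_pow]; exact hD
    have hdy : d y = 0 := by
      have h := congrArg δ.liftKaehlerDifferential (hd2 y)
      rw [map_smul, Derivation.liftKaehlerDifferential_comp_D,
        Derivation.liftKaehlerDifferential_comp_D, hy, eq_comm, Algebra.smul_def, mul_eq_zero] at h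
      exact (map_eq_zero _).mp (h.resolve_right hd)
    have : CharP S p := charP_of_injective_algebraMap (algebraMap K S).injective p
    obtain ⟨g, hg⟩ := FF.Diff.exists_pow_eq_of_deriv_eq_zero (x := x') p hd1 hdy
    rw [← frobenius_inj F p (congrArg Subtype.val hg : ((g : S) : F) ^ p = f ^ p)]
    exact g.2
  have : IsPurelyInseparable S F := separableClosure.isPurelyInseparable K⟮x⟯ F
  have : CharP S p := charP_of_injective_algebraMap (algebraMap K S).injective p
  have : ExpChar S p := ExpChar.prime hp.out
  rw [← separableClosure.eq_top_iff, eq_top_iff]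
  intro f _
  obtain ⟨n, y, hy⟩ := (isPurelyInseparable_iff_pow_mem S p).mp inferInstance f
  have key : ∀ m : ℕ, ∀ g : F, g ^ p ^ m ∈ S → g ∈ S := fun m => by
    induction m with
    | zero => intro g hg; simpa using hg
    | succ m ih =>
      intro g hg
      exact hpow g (ih _ (by rw [← pow_mul, ← pow_succ']; exact hg))
  exact key n f (hy ▸ y.2)

end Fermat.Agent.WeightOneGalois.Genus
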