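import Fermat.Agent.FF.DiffBasic
import Fermat.Agent.WeightOneGalois.Monodromy.Field
import Fermat.Agent.X0.CuspCount

/-!
# A cover of curves without elliptic points whose parabolic elements lift is unramified

For `Γ ≤ Γ'` without elliptic elements such that every element of trace `2` of `Γ'` lies in `Γ`,
every place of the curve of `Γ` has index one over the curve of `Γ'`.
-/

noncomputable section

namespace Fermat.Agent.WeightOneGalois.Curve

open CongruenceSubgroup Function AlgebraicCurve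
open scoped MatrixGroups IntermediateField

variable {Γ Γ' : Subgroup SL(2, ℤ)} {W : ℕ}
variable {F F' : IntermediateField ℂ (LaurentSeries ℂ)}

theorem smul_mk_eq_iff (g e : SL(2, ℤ)) :
    e • (g : SL(2, ℤ) ⧸ Γ) = g ↔ g⁻¹ * e * g ∈ Γ := by
  show ((e * g : SL(2, ℤ)) : SL(2, ℤ) ⧸ Γ) = g ↔ _
  rw [QuotientGroup.eq, ← inv_mem_iff, mul_inv_rev, inv_inv, mul_assoc]

theorem T_iterate_eq_iff (g : SL(2, ℤ)) (n : ℕ) :
    IsPeriodicPt ((ModularGroup.T : SL(2, ℤ)) • ·) n (g : SL(2, ℤ) ⧸ Γ) ↔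
      g⁻¹ * ModularGroup.T ^ n * g ∈ Γ := by
  rw [← smul_mk_eq_iff]
  show ((ModularGroup.T : SL(2, ℤ)) • ·)^[n] _ = _ ↔ _
  rw [smul_iterate]

namespace CurveData

variable (D : CurveData Γ W F)
include D

variable (D' : CurveData Γ' W F') (hle : Γ ≤ Γ') (hF : F' ≤ F)
include D' hle hF

/-- The conjugate expansions of the smaller field are restrictions. -/
theorem intVal_inclusion (ψ : X0.Expansion W) (γ : SL(2, ℤ)) (x : F') :
    (D.intVal ψ γ).ord (IntermediateField.inclusion hF x) = (D'.intVal ψ γ).ord x := by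
  obtain ⟨k, f, g, hf, hg, hg0, h⟩ := D'.exists_rep x
  rw [D.intVal_ord, D'.intVal_ord, D'.conjHom_eq ψ γ x hf hg hg0 h,
    D.conjHom_eq ψ γ _ (hf.mono hle) (hg.mono hle) hg0
      (show ((IntermediateField.inclusion hF x : F) : LaurentSeries ℂ) * _ = _ from h),
    show D.wslash (hf.mono hle) γ = D'.wslash hf γ from Subtype.ext rfl,
    show D.wslash (hg.mono hle) γ = D'.wslash hg γ from Subtype.ext rfl]

/-- Every place has index one over the smaller curve. -/
theorem exists_place_ord_eq [NeZero W]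
    (hpar : ∀ γ ∈ Γ', Grp.tr γ = 2 → γ ∈ Γ) (V : Place ℂ F) :
    ∃ W₀ : Place ℂ F', ∀ x : F', V.ord (IntermediateField.inclusion hF x) = W₀.ord x := by
  have := D.isFunctionField
  have := D'.isFunctionField
  set ι := IntermediateField.inclusion hF
  have hι : Injective ι := ι.injective
  have hj : ι D'.jEl = D.jEl := Subtype.ext rfl
  let u : X0.IntVal ℂ F' :=
    { ord := fun f => V.ord (ι f)
      map_mul := fun {f g} hf hg => by
        rw [map_mul]
        exact V.ord_mul ((map_ne_zero_iff _ hι).mpr hf) ((map_ne_zero_iff _ hι).mpr hg)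
      map_add := fun {f g} hf hg hfg => by
        rw [map_add]
        exact (X0.intValOfPlace V).map_add ((map_ne_zero_iff _ hι).mpr hf)
          ((map_ne_zero_iff _ hι).mpr hg) (by rw [← map_add]; exact (map_ne_zero_iff _ hι).mpr hfg)
      map_const := fun {c} _ => by
        rw [AlgHom.commutes]
        exact FF.ord_algebraMap V _ }
  -- in either case the restriction of `V` is a place
  suffices h : ∃ hne : (∃ f : F', f ≠ 0 ∧ u.ord f ≠ 0),
      ∀ k : ℕ, 0 < k → (∀ f : F', f ≠ 0 → u.ord f = k * (u.place hne).ord f) → k = 1 by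
    obtain ⟨hne, h⟩ := h
    obtain ⟨k, hk, hord⟩ := u.exists_ord_eq_mul hne
    refine ⟨u.place hne, fun x => ?_⟩
    rcases eq_or_ne x 0 with rfl | hx
    · simp
    · have h1 := hord x hx
      rw [h k hk hord, Nat.cast_one, one_mul] at h1
      exact h1
  rcases le_or_gt 0 (V.ord D.jEl) with hV | hV
  · obtain ⟨a, ha | ha⟩ := FF.exists_const (v := V) hV
    · exact absurd ha (D.sub_const_ne_zero a)
    obtain ⟨τ, hτ, hord⟩ := D.exists_point_place a V ha
    have hsub : ι (D'.jEl - algebraMap ℂ F' a) = D.jEl - algebraMap ℂ F a := by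
      rw [map_sub, hj, AlgHom.commutes]
    have hne : ∃ f : F', f ≠ 0 ∧ u.ord f ≠ 0 := ⟨_, D'.sub_const_ne_zero a, by
      show V.ord (ι _) ≠ 0
      rw [hsub]; omega⟩
    refine ⟨hne, fun k hk hk' => ?_⟩
    have h1 : V.ord (ι (D'.jEl - algebraMap ℂ F' a)) = k * (u.place hne).ord _ :=
      hk' _ (D'.sub_const_ne_zero a)
    rw [hsub, hord] at h1
    have hpos : 0 < (u.place hne).ord (D'.jEl - algebraMap ℂ F' a) := by
      have := X0.one_le_ellOrder τ
      by_contra hcon
      have := mul_nonpos_of_nonneg_of_nonpos (Int.natCast_nonneg k) (not_lt.mp hcon)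
      omega
    obtain ⟨τ', hτ', hord'⟩ := D'.exists_point_place a (u.place hne) hpos
    rw [hord', X0.ellOrder_eq, X0.ellOrder_eq τ', hτ, hτ', ← hτ, ← X0.ellOrder_eq] at h1
    have := X0.one_le_ellOrder τ
    have h2 : (1 : ℤ) * X0.ellOrder τ = (k : ℤ) * X0.ellOrder τ := by rw [one_mul]; exact h1
    exact_mod_cast (mul_right_cancel₀ (by omega) h2).symm
  have := D.finiteIndex
  have := D'.finiteIndex
  obtain ⟨pl, -, h2, h3⟩ := D.exists_places_cusp
  obtain ⟨o, hoV⟩ := (h2 V).mp hV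
  have hne : ∃ f : F', f ≠ 0 ∧ u.ord f ≠ 0 := ⟨_, D'.jEl_ne_zero, by
    show V.ord (ι _) ≠ 0
    rw [hj]; omega⟩
  refine ⟨hne, fun e he he' => ?_⟩
  induction o using Quotient.inductionOn with
  | h q =>
  obtain ⟨-, k, hk, hkd, hordq⟩ := h3 q
  rw [hoV] at hordq
  rw [X0.natCard_orbit_zpowers] at hkd
  set q' : SL(2, ℤ) ⧸ Γ' := QuotientGroup.mk q.out
  obtain ⟨pl', -, -, h3'⟩ := D'.exists_places_cusp
  obtain ⟨-, k', hk', hkd', hordq'⟩ := h3' q'
  rw [X0.natCard_orbit_zpowers] at hkd'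
  set w := pl' (Quotient.mk'' q')
  -- the two orbits have the same size
  have hper : minimalPeriod ((ModularGroup.T : SL(2, ℤ)) • ·) q =
      minimalPeriod ((ModularGroup.T : SL(2, ℤ)) • ·) q' := by
    have hiff : ∀ n : ℕ, IsPeriodicPt ((ModularGroup.T : SL(2, ℤ)) • ·) n q ↔
        IsPeriodicPt ((ModularGroup.T : SL(2, ℤ)) • ·) n q' := fun n => by
      conv_lhs => rw [← q.out_eq]
      rw [T_iterate_eq_iff]
      refine Iff.trans ⟨fun h => hle h, fun h => hpar _ h ?_⟩ (T_iterate_eq_iff _ n).symm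
      rw [show q.out⁻¹ * ModularGroup.T ^ n * q.out =
        q.out⁻¹ * ModularGroup.T ^ n * (q.out⁻¹)⁻¹ by rw [inv_inv], Grp.tr_conj, Grp.tr_eq,
        ← zpow_natCast, ModularGroup.coe_T_zpow]
      simp
    exact Nat.dvd_antisymm
      (IsPeriodicPt.minimalPeriod_dvd ((hiff _).mpr (isPeriodicPt_minimalPeriod _ _)))
      (IsPeriodicPt.minimalPeriod_dvd ((hiff _).mp (isPeriodicPt_minimalPeriod _ _)))
  rw [← hper] at hkd'
  have hkk : k' = k := by
    have hpos : minimalPeriod ((ModularGroup.T : SL(2, ℤ)) • ·) q ≠ 0 := fun h => by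
      rw [h, mul_zero] at hkd; exact NeZero.ne W hkd.symm
    exact Nat.eq_of_mul_eq_mul_right (Nat.pos_of_ne_zero hpos) (hkd'.trans hkd.symm)
  have hrel : ∀ f : F', f ≠ 0 → (e : ℤ) * (u.place hne).ord f = w.ord f := fun f hf => by
    have h1 := hordq (ι f) ((map_ne_zero_iff _ hι).mpr hf)
    have h2 := hordq' f hf
    obtain ⟨δ, hδ, hδq⟩ : ∃ δ ∈ Γ', X0.cosetRep q' = δ * X0.cosetRep q := by
      obtain ⟨h, hh⟩ := QuotientGroup.mk_out_eq_mul Γ' q.out
      exact ⟨(h : SL(2, ℤ))⁻¹, inv_mem h.2, by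
        show (q' : SL(2, ℤ) ⧸ Γ').out⁻¹ = _
        rw [show q'.out = q.out * h from hh, mul_inv_rev]; rfl⟩
    rw [X0.RatioField.cosetVal, hδq, D'.intVal_ord, D'.conjHom_mul_left _ hδ, ← D'.intVal_ord,
      ← D.intVal_inclusion D' hle hF, hkk] at h2
    rw [X0.RatioField.cosetVal, h2] at h1
    have h3 : V.ord (ι f) = e * (u.place hne).ord f := he' f hf
    rw [h3] at h1
    exact mul_left_cancel₀ (show (k : ℤ) ≠ 0 by exact_mod_cast hk.ne') h1.symm
  obtain ⟨π, hπ⟩ := FF.Diff.exists_uniformiser w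
  have h := hrel π (by rintro rfl; simp at hπ)
  rw [hπ] at h
  have hd : (e : ℤ) ∣ 1 := Dvd.intro _ h
  exact Nat.dvd_one.mp (by exact_mod_cast hd)

end CurveData

end Fermat.Agent.WeightOneGalois.Curve
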