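import Fermat.Prelude.Thm_ModularCurve_coeff_jqModC_neg_one
import Fermat.Agent.Red.Genus
import Fermat.Agent.WeightOneGalois.Genus.Hurwitz
import Fermat.Agent.WeightOneGalois.Genus.Separable
import Fermat.Agent.WeightOneGalois.Genus.Unramified
import Fermat.Agent.WeightOneGalois.Hecke.Gauss
import Fermat.Agent.WeightOneGalois.Monodromy.BaseChange
import Fermat.Agent.X0.Genus

/-!
# The genus of the curve of `GT M` does not drop modulo `p ∤ M`

`X_{GT M} → X₀(M²)` is unramified in characteristic zero when `Γ₀(M)` has no elliptic element, and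
`X₀(M²)` keeps its genus modulo `p`, so Riemann–Hurwitz in characteristic `p` suffices.
-/

noncomputable section

open CongruenceSubgroup ModularCurve AlgebraicCurve
open scoped MatrixGroups IntermediateField

namespace Fermat.Agent.WeightOneGalois.Genus

local notation "Qbar" => AlgebraicClosure ℚ

/-- Riemann–Hurwitz for nested fields of series over the `j`-line. -/
theorem two_genus_compare {K : Type} [Field K] [IsAlgClosed K]
    {E F : IntermediateField K (LaurentSeries K)} (hle : E ≤ F) [FF.IsFunctionField K E]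
    [FF.IsFunctionField K F] (hjE : jqModC K ∈ E) {a b : ℕ} (ha : 0 < a) (hb : 0 < b)
    (hEa : IntermediateField.relfinrank K⟮jqModC K⟯ E = a)
    (hFb : IntermediateField.relfinrank K⟮jqModC K⟯ F = b) :
    (b : ℤ) * (2 * (genusFF K E : ℤ) - 2) ≤ (a : ℤ) * (2 * (genusFF K F : ℤ) - 2) ∧
      (CharZero K → (∀ v : Place K F, ∃ (w : Place K E) (t : E), w.ord t = 1 ∧
          (∀ x : E, IntermediateField.inclusion hle x ∈ v.toValuationSubring ↔
            x ∈ w.toValuationSubring) ∧ v.ord (IntermediateField.inclusion hle t) = 1) →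
        (a : ℤ) * (2 * (genusFF K F : ℤ) - 2) = (b : ℤ) * (2 * (genusFF K E : ℤ) - 2)) := by
  let : Algebra E F := (IntermediateField.inclusion hle).toRingHom.toAlgebra
  have : IsScalarTower K E F :=
    IsScalarTower.of_algebraMap_eq fun c => ((IntermediateField.inclusion hle).commutes c).symm
  set x : E := ⟨jqModC K, hjE⟩
  have hxF : ((algebraMap E F x : F) : LaurentSeries K) = jqModC K := rfl
  -- supplied by hand: the search for these is slow
  have : Module.Free K⟮x⟯ E := Module.Free.of_divisionRing _ _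
  have : Module.Free K⟮algebraMap E F x⟯ F := Module.Free.of_divisionRing _ _
  have hEfin : FiniteDimensional K⟮x⟯ E := Module.finite_of_finrank_pos (by
    rw [Red.finrank_adjoin_eq_relfinrank, hEa]; exact ha)
  have hFfin : FiniteDimensional K⟮algebraMap E F x⟯ F := Module.finite_of_finrank_pos (by
    rw [Red.finrank_adjoin_eq_relfinrank, hxF, hFb]; exact hb)
  have hfin : FiniteDimensional E F := by
    obtain ⟨s, hs⟩ := hFfin.fg_top
    refine ⟨⟨s, eq_top_iff.mpr fun y hy' => ?_⟩⟩
    clear hy'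
    have hy : y ∈ Submodule.span K⟮algebraMap E F x⟯ (s : Set F) := hs ▸ Submodule.mem_top
    induction hy using Submodule.span_induction with
    | mem z hz => exact Submodule.subset_span hz
    | zero => exact zero_mem _
    | add z w _ _ hz hw => exact add_mem hz hw
    | smul c z _ hz =>
      have hle' : K⟮algebraMap E F x⟯ ≤ (IsScalarTower.toAlgHom K E F).fieldRange :=
        IntermediateField.adjoin_le_iff.mpr (Set.singleton_subset_iff.mpr ⟨x, rfl⟩)
      obtain ⟨c', hc'⟩ := hle' c.2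
      have : c • z = c' • z := by
        rw [Algebra.smul_def, Algebra.smul_def]
        exact congrArg (· * z) hc'.symm
      rw [this]
      exact Submodule.smul_mem _ _ hz
  have hx : Transcendental K x := Red.transcendental_subtype _ _ (MF.transcendental_jqModC (K := K))
  have heu : euler K (jqModC K) ≠ 0 := fun h => by
    have h1 := congrArg (fun f : LaurentSeries K => f.coeff (-1)) h
    simp only [euler_coeff, coeff_jqModC_neg_one, HahnSeries.coeff_zero] at h1
    simp at h1
  have : Algebra.IsSeparable K⟮x⟯ E := isSeparable_of_euler_ne_zero E.val x hx heu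
  have : Algebra.IsSeparable K⟮algebraMap E F x⟯ F :=
    isSeparable_of_euler_ne_zero F.val _ (FF.transcendental_algebraMap hx) (by exact heu)
  have hdeg : b = a * Module.finrank E F := by
    rw [← hEa, ← hFb, ← hxF, ← Red.finrank_adjoin_eq_relfinrank,
      FF.finrank_adjoin_algebraMap, Red.finrank_adjoin_eq_relfinrank]
    rfl
  obtain ⟨h1, h2⟩ := le_two_genus_sub_two (F := F) hx
  rw [hdeg]
  push_cast
  rw [mul_assoc]
  refine ⟨mul_le_mul_of_nonneg_left h1 (Int.natCast_nonneg a), fun h0 hun => ?_⟩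
  rw [h2 h0 fun v => ?_]
  obtain ⟨w, t, ht, hmem, hvt⟩ := hun v
  have hw : v.restrict E = w := Place.ext (by ext y; exact hmem y)
  have h := v.ord_restrict t
  rw [hw, ht, mul_one] at h
  have h' : ((1 : ℕ) : ℤ) = v.ramificationIndex E := by
    rw [← h, Nat.cast_one]; exact hvt.symm
  exact_mod_cast h'.symm

section Abstract

variable {K E F : Type*} [Field K] [Field E] [Field F] [Algebra K E] [Algebra K F]

/-- A place is not trivial on a subfield over which the field is finite. -/
theorem exists_ord_ne_zero (ι : E →ₐ[K] F) (j : E) (jF : F) (hj : ι j = jF)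
    [FiniteDimensional K⟮jF⟯ F] (v : Place K F) : ∃ f : E, f ≠ 0 ∧ v.ord (ι f) ≠ 0 := by
  by_contra! hcon
  obtain ⟨f₀, hv₀⟩ := FF.Diff.exists_uniformiser v
  have hf₀ : f₀ ≠ 0 := FF.Diff.uniformiser_ne_zero hv₀
  have hall : ∀ z ∈ K⟮jF⟯, z ≠ 0 → v.ord z = 0 := fun z hz hz0 => by
    obtain ⟨x, rfl⟩ : z ∈ ι.fieldRange :=
      (IntermediateField.adjoin_le_iff.mpr (Set.singleton_subset_iff.mpr ⟨j, hj⟩) :
        K⟮jF⟯ ≤ ι.fieldRange) hz
    exact hcon x fun h => hz0 (by rw [h]; exact map_zero ι)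
  set P := (minpoly K⟮jF⟯ f₀⁻¹).map (algebraMap K⟮jF⟯ F)
  have := X0.nonneg_of_monic_root v (inv_ne_zero hf₀)
    ((minpoly.monic (Algebra.IsIntegral.isIntegral _)).map _ : P.Monic)
    (by rw [Polynomial.eval_map_algebraMap, minpoly.aeval])
    fun i hi => (hall _ (by rw [Polynomial.coeff_map]; exact SetLike.coe_mem _) hi).ge
  rw [v.ord_inv] at this
  omega

variable {L E' : Type*} [Field L] [Field E'] [Algebra L E']

/-- An index-one place after extension of constants is an index-one place before. -/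
theorem exists_place_of_ext (ι : E →ₐ[K] F) (cE : E →+* E') (v : Place K F)
    {W : Place L E'} (hW : ∀ x : E, v.ord (ι x) = W.ord (cE x))
    (huniq : ∀ w : Place K E, (∀ x, cE x ∈ W.toValuationSubring ↔ x ∈ w.toValuationSubring) →
      ∀ x, W.ord (cE x) = w.ord x)
    (hne : ∃ f : E, f ≠ 0 ∧ v.ord (ι f) ≠ 0) :
    ∃ (w : Place K E) (t : E), w.ord t = 1 ∧
      (∀ x, ι x ∈ v.toValuationSubring ↔ x ∈ w.toValuationSubring) ∧ v.ord (ι t) = 1 := by
  have hι : Function.Injective ι := ι.toRingHom.injective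
  have hι0 : ∀ {f : E}, f ≠ 0 → ι f ≠ 0 := fun hf => (map_ne_zero_iff _ hι).mpr hf
  let u : X0.IntVal K E :=
    { ord := fun x => v.ord (ι x)
      map_mul := fun {f g} hf hg => by
        rw [map_mul]; exact v.ord_mul (hι0 hf) (hι0 hg)
      map_add := fun {f g} hf hg hfg => by
        rw [map_add]
        exact (X0.intValOfPlace v).map_add (hι0 hf) (hι0 hg) (by rw [← map_add]; exact hι0 hfg)
      map_const := fun {c} _ => by
        rw [AlgHom.commutes]
        exact FF.ord_algebraMap v _ }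
  set w := u.place hne
  have hmem : ∀ x, ι x ∈ v.toValuationSubring ↔ x ∈ w.toValuationSubring := fun x => by
    rw [X0.mem_place_iff, map_ne_zero_iff _ hι]
    rfl
  have hWw := huniq w fun x => by
    rw [← hmem, X0.mem_place_iff, X0.mem_place_iff, hW, _root_.map_ne_zero,
      map_ne_zero_iff _ hι]
  obtain ⟨t, ht⟩ := FF.Diff.exists_uniformiser w
  exact ⟨w, t, ht, hmem, by rw [hW, hWw, ht]⟩

end Abstract

variable {M : ℕ}

theorem noEll_sq (h : NoEll M) : NoEll (M ^ 2) := fun γ hγ =>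
  h γ (MF.Gamma0_le_of_dvd (dvd_pow_self M two_ne_zero) hγ)

/-- Parabolic elements of `Γ₀(M²)` lie in `GT M`. -/
theorem mem_GT_of_tr_eq_two {γ : SL(2, ℤ)} (hγ : γ ∈ Gamma0 (M ^ 2)) (ht : Grp.tr γ = 2) :
    γ ∈ GT M := by
  refine ⟨hγ, Or.inl ?_⟩
  have hdet := γ.2
  rw [Matrix.det_fin_two] at hdet
  rw [Grp.tr_eq] at ht
  have hc : ((M ^ 2 : ℕ) : ℤ) ∣ γ 1 0 := by
    rwa [Gamma0_mem, ZMod.intCast_zmod_eq_zero_iff_dvd] at hγ
  have h2 : (M : ℤ) ^ 2 ∣ (γ 1 1 - 1) ^ 2 := by
    push_cast at hc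
    refine hc.trans ⟨-γ 0 1, ?_⟩
    linear_combination (γ 1 1) * ht - hdet
  have h3 := (Int.pow_dvd_pow_iff two_ne_zero).mp h2
  rw [← sub_eq_zero, ← Int.cast_one (R := ZMod M), ← Int.cast_sub,
    ZMod.intCast_zmod_eq_zero_iff_dvd]
  exact h3

/-- The curve of `Γ₀(N)` over `ℂ`, without elliptic elements. -/
theorem curveData_Gamma0 (N : ℕ) [NeZero N] (hN : NoEll N) :
    Curve.CurveData (Gamma0 N) N (Mono.FC N) where
  toCurveField := X0.curveField N
  two_le_tr := hN

variable [NeZero M]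

theorem full_le_FYK (K : Type*) [Field K] [Algebra ℚ K] :
    laurentBaseChange K (modularFunctionFieldFull (M ^ 2)) ≤ FYK M K :=
  IntermediateField.adjoin_le_iff.mpr (by
    rintro _ ⟨y, hy, rfl⟩
    exact IntermediateField.subset_adjoin _ _ ⟨y, full_le_FY M hy, rfl⟩)

/-- In characteristic zero the curve of `GT M` is unramified over `X₀(M²)`. -/
theorem exists_place_under (hC : FieldC) (hD : FieldDegree) (hM : 4 ≤ M) (hE : NoEll M)
    [FF.IsFunctionField Qbar (modularFunctionFieldBar (M ^ 2))] (v : Place Qbar (FYK M Qbar)) :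
    ∃ (w : Place Qbar (modularFunctionFieldBar (M ^ 2))) (t : modularFunctionFieldBar (M ^ 2)),
      w.ord t = 1 ∧
      (∀ x, IntermediateField.inclusion (full_le_FYK Qbar) x ∈ v.toValuationSubring ↔
        x ∈ w.toValuationSubring) ∧
      v.ord (IntermediateField.inclusion (full_le_FYK Qbar) t) = 1 := by
  have := Curve.isFunctionField_FYK hD hM Qbar
  have := Curve.isFunctionField_FYK hD hM ℂ
  have := (curveData_Gamma0 (M ^ 2) (noEll_sq hE)).isFunctionField
  have := Curve.finiteDimensional_FYK hD hM Qbar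
  obtain ⟨W₀, hW₀⟩ := (Curve.curveData_GT hC hD hM).exists_place_ord_eq
    (curveData_Gamma0 (M ^ 2) (noEll_sq hE)) (fun γ hγ => hγ.1) (full_le_FYK ℂ)
    (fun γ => mem_GT_of_tr_eq_two) (Curve.placeYC M v)
  have hcomp : ∀ x : modularFunctionFieldBar (M ^ 2),
      IntermediateField.inclusion (full_le_FYK (M := M) ℂ) (Mono.toFC (M ^ 2) x) =
        Curve.toFYC M (IntermediateField.inclusion (full_le_FYK Qbar) x) := fun x => Subtype.ext (by
    rw [IntermediateField.coe_inclusion, Mono.coe_toFC, Curve.coe_toFYC,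
      IntermediateField.coe_inclusion])
  have hjY : IntermediateField.inclusion (full_le_FYK (M := M) Qbar) (X0.jBar (M ^ 2)) =
      Curve.jY hM Qbar :=
    Subtype.ext (by rw [IntermediateField.coe_inclusion]; rfl)
  exact exists_place_of_ext _ (Mono.toFC (M ^ 2)) v
    (fun x => by
      show v.ord _ = _
      rw [← Curve.ord_placeYC, ← hcomp]; exact hW₀ _)
    (fun w hw => Mono.placeC_unique (M ^ 2) w W₀ hw ▸ Mono.ord_placeC (M ^ 2) w)
    (exists_ord_ne_zero _ (X0.jBar (M ^ 2)) (Curve.jY hM Qbar) hjY v)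

/-- The genus of the curve of `GT M` does not drop modulo `p ∤ M`. -/
theorem genusY (hC : FieldC) (hD : FieldDegree) : GenusY := by
  intro M _ p hM hE hp hpM A hA
  have : Fact p.Prime := ⟨hp⟩
  have hpM2 : ¬ p ∣ M ^ 2 := fun h => hpM (hp.dvd_of_dvd_pow h)
  set 𝕜 := IsLocalRing.ResidueField A
  have := Red.isAlgClosed_residueField A
  have hk : (M : 𝕜) ≠ 0 := Red.natCast_residue_ne_zero A hp hA hpM
  have hdeg := Red.sameDegree hpM2 hA
  have := Red.isFunctionField_bar hdeg
  have := Red.isFunctionField_residue hdeg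
  have := isFunctionField_FYK (K := Qbar) hM hD
  have : FF.IsFunctionField 𝕜 (FYres M 𝕜) := isFunctionField_of_eq_FYres hM hD hk rfl
  -- the genus of `X₀(M²)` is preserved
  obtain ⟨hgX, -⟩ := (Red.gaussData (A := A) (N := M ^ 2) IsLocalRing.residue_surjective
    hdeg).genus_eq_and_latticeSurj rfl (Red.genus_le A hpM2 hA)
  have hk2 : ((M ^ 2 : ℕ) : 𝕜) ≠ 0 := by push_cast; exact pow_ne_zero 2 hk
  have hq2 : ((M ^ 2 : ℕ) : Qbar) ≠ 0 := Nat.cast_ne_zero.mpr (pow_ne_zero 2 (NeZero.ne M))
  have hψk := Igusa.relfinrank_full (K := 𝕜) (M ^ 2) hk2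
  have hψq := Igusa.relfinrank_full (K := Qbar) (M ^ 2) hq2
  rw [Igusa.jv_one_one] at hψk hψq
  rw [← MF.laurentBaseChange_full_eq Qbar (M ^ 2)] at hψq
  have hDq : IntermediateField.relfinrank Qbar⟮jqModC Qbar⟯ (FYK M Qbar) = (GT M).index := by
    rw [show FYK M Qbar = FYres M Qbar from laurentBaseChange_FY (by omega) Qbar]
    exact hD M hM Qbar (Nat.cast_ne_zero.mpr (NeZero.ne M))
  have hψ := Igusa.psi_pos (M ^ 2)
  have hidx : 0 < (GT M).index := Nat.pos_of_ne_zero Subgroup.FiniteIndex.index_ne_zero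
  have hmemq : jqModC Qbar ∈ modularFunctionFieldBar (M ^ 2) := (X0.jBar (M ^ 2)).2
  obtain ⟨-, h0⟩ := two_genus_compare (full_le_FYK (M := M) Qbar) hmemq hψ hidx hψq hDq
  obtain ⟨h1, -⟩ := two_genus_compare (F := FYres M 𝕜) le_sup_left
    (jqModC_mem_full 𝕜 (M ^ 2)) hψ hidx hψk (hD M hM 𝕜 hk)
  have h0' := h0 inferInstance (exists_place_under hC hD hM hE)
  change genusFF Qbar (modularFunctionFieldBar (M ^ 2)) = _ at hgX
  rw [← hgX] at h1
  have h2 := le_of_mul_le_mul_left (h0'.trans_le h1) (by exact_mod_cast hψ)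
  have h3 : (genusFF Qbar (FYK M Qbar) : ℤ) ≤ genusFF 𝕜 (FYres M 𝕜) := by omega
  exact Int.ofNat_le.mp h3

end Fermat.Agent.WeightOneGalois.Genus
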